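/-
S59lib / FlatSS / Emb  (helper6)  — Project I, block FLAT-SS.

THE EMBEDDING OF `(O/𝔞)^r` INTO A POWER OF `J₀(N)[p^n]`.

`S32lib/Lat/Torsion` and `S33lib/Lat/Pmap` present `(O/𝔞)^r` (limit matrices mod `𝔞`) as a QUOTIENT of
`(J₀(N)[p^n])^{O/𝔞}`.  Here the dual presentation, as a SUBOBJECT: with `Λ = Hom(O/𝔞, ℤ/p^n)` (additive
maps),

  `emapQ : (O/𝔞)^r → (J₀(N)[p^n])^Λ`,   `emapQ v lam = κ_n⁻¹ (lam ∘ v)`

is additive, `G_ℚ`-equivariant (`actQuot` on the source, `galTors` on every factor) and injective (`ℤ/p^n`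
cogenerates the groups killed by `p^n`).  A `G_ℚ`-submodule `X` of `(O/𝔞)^r` with
`X = ∑ (σ-1)(τ-1) X` (`σ, τ` in an inertia group at `p`) is therefore carried, factor by factor, into
`∑ (σ-1)(τ-1) J₀(N)[p^n]`.
-/
import Mathlib
import Fermat.Agent.S33lib.Lat.Pmap
import Fermat.Agent.S43lib.B0.End.Sep

set_option autoImplicit false
set_option linter.unusedSectionVars false
set_option linter.style.haveILetI false

noncomputable section

namespace Fermat.Agent.S59lib.FlatSS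

open Matrix Fermat.Agent.S29lib Fermat.Agent.S29lib.E Fermat.Agent.S29lib.S30 Fermat.Agent.S32lib
  Fermat.Agent.S33lib.Lat

variable {N p : ℕ} [NeZero N] [Fact p.Prime] (C : ComparisonData N p)
  {O : Type} [CommRing O] [IsLocalRing O] [IsAdicComplete (IsLocalRing.maximalIdeal O) O]
  (hpO : (p : O) ∈ IsLocalRing.maximalIdeal O)
  (𝔞 : Ideal O) [Fintype (O ⧸ 𝔞)] (n : ℕ) (hn : IsLocalRing.maximalIdeal O ^ n ≤ 𝔞)

/-- the index set `Hom(O/𝔞, ℤ/p^n)` -/
abbrev Lam (p : ℕ) {O : Type} [CommRing O] (𝔞 : Ideal O) (n : ℕ) : Type := (O ⧸ 𝔞) →+ ZMod (p ^ n)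

instance instNeZeroPow : NeZero (p ^ n) := ⟨pow_ne_zero _ (Fact.out : p.Prime).ne_zero⟩

instance finite_Lam : Finite (Lam p 𝔞 n) :=
  Finite.of_injective (fun f : Lam p 𝔞 n => (f : (O ⧸ 𝔞) → ZMod (p ^ n))) DFunLike.coe_injective

include hpO hn in
/-- `p^n` kills `O/𝔞` -/
theorem pow_smul_eq_zero (y : O ⧸ 𝔞) : (p ^ n) • y = 0 := by
  obtain ⟨a, rfl⟩ := Ideal.Quotient.mk_surjective y
  rw [nsmul_eq_mul, ← map_natCast (Ideal.Quotient.mk 𝔞), ← map_mul, Ideal.Quotient.eq_zero_iff_mem]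
  refine 𝔞.mul_mem_right _ (hn ?_)
  rw [Nat.cast_pow]
  exact Ideal.pow_mem_pow hpO n

/-- additive maps `O/𝔞 → ℤ/p^n` are `ℤ/p^n`-linear -/
theorem lam_thetaQ_mul (lam : Lam p 𝔞 n) (a : ZMod (p ^ n)) (c : O ⧸ 𝔞) :
    lam (thetaQ hpO 𝔞 n hn a * c) = a * lam c := by
  have ha : a = ((a.val : ℕ) : ZMod (p ^ n)) := (ZMod.natCast_zmod_val a).symm
  rw [ha, map_natCast, ← nsmul_eq_mul, map_nsmul, nsmul_eq_mul]

/-- **the embedding** `(O/𝔞)^r → (J₀(N)[p^n])^Λ` -/
def emapQ : (Fin C.r → O ⧸ 𝔞) →+ (Lam p 𝔞 n → Tors N (p ^ n)) where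
  toFun v lam := (C.κ n).symm (fun i => lam (v i))
  map_zero' := by
    funext lam
    have : (fun i : Fin C.r => lam ((0 : Fin C.r → O ⧸ 𝔞) i)) = 0 := by
      funext i
      simp
    rw [this, map_zero]
    rfl
  map_add' v w := by
    funext lam
    have : (fun i : Fin C.r => lam ((v + w) i)) =
        (fun i => lam (v i)) + (fun i => lam (w i)) := by
      funext i
      simp
    rw [this, map_add]
    rfl

theorem emapQ_apply (v : Fin C.r → O ⧸ 𝔞) (lam : Lam p 𝔞 n) :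
    emapQ C 𝔞 n v lam = (C.κ n).symm (fun i => lam (v i)) := rfl

include hn in
/-- **equivariance** -/
theorem emapQ_equivariant (σ : GQ) (v : Fin C.r → O ⧸ 𝔞) (lam : Lam p 𝔞 n) :
    emapQ C 𝔞 n (actQuot C hpO 𝔞 σ v) lam = galTors (p ^ n) σ (emapQ C 𝔞 n v lam) := by
  rw [emapQ_apply, emapQ_apply]
  have h1 := (torsionSystemOf C).galMat_mulVec n σ (fun i => lam (v i))
  have h2 : (fun i => lam (actQuot C hpO 𝔞 σ v i)) =
      ((torsionSystemOf C).galMat n σ).mulVec (fun i => lam (v i)) := by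
    funext i
    unfold actQuot
    rw [map_galMatO_eq C hpO 𝔞 n hn]
    simp only [Matrix.mulVec, dotProduct, Matrix.map_apply, map_sum]
    refine Finset.sum_congr rfl fun l _ => ?_
    exact lam_thetaQ_mul hpO 𝔞 n hn lam _ _
  rw [h2, h1]
  exact (C.κ n).symm_apply_apply _

include hpO hn in
/-- **injectivity** -/
theorem emapQ_injective : Function.Injective (emapQ C 𝔞 n) := by
  rw [injective_iff_map_eq_zero]
  intro v hv
  funext i
  by_contra hne
  obtain ⟨lam, hlam⟩ := Fermat.Agent.S43lib.B0.EndBlock.exists_hom_zmod_apply_ne_zero (p ^ n)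
    (Nat.pos_of_ne_zero (NeZero.ne _)) (pow_smul_eq_zero hpO 𝔞 n hn) (x := v i) hne
  apply hlam
  have h1 := congrFun hv lam
  rw [emapQ_apply] at h1
  have h2 : (fun i => lam (v i)) = 0 := by
    have := congrArg (C.κ n) h1
    rw [AddEquiv.apply_symm_apply] at this
    rw [this]
    exact map_zero _
  exact congrFun h2 i

end Fermat.Agent.S59lib.FlatSS

end
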