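/-
S59lib / FlatSS / Order  (helper6)  — Project I, block FLAT-SS.

FINITE FLAT MODEL OF THE `G_ℚ`-CORE OF A SUBGROUP CARRYING AN `A0`-HOPF ORDER.

`J` a `G_ℚ`-module, `A ∣ ℓ` a place of `ℚ̄`, `K ≤ J` a subgroup stable under the inertia group `I_A`, with an
`A0`-Hopf order `O` of `I_A`-equivariant functions on `K` (for us: `K` = the `ℓ^n`-torsion of the kernel of
reduction of `J₀(N)` at a prime `ℓ ∥ N`, `S33lib.PFiltStmt`).  `K` is NOT `G_ℚ`-stable; its core

  `core K = {x | ∀ g ∈ G_ℚ, g • x ∈ K}`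

is the largest `G_ℚ`-stable subgroup of `K`.

* `restrictOrder`  : the restriction of `O` to a subgroup `Γ ≤ K` saturated under `I_A` is an `A0`-Hopf order
  (fullness: extend an equivariant function by zero).
* `satOrder`       : the `A0`-algebra generated by the `D_A`-conjugates of a Hopf order on a `G_ℚ`-stable `Γ`
  is a Hopf order, stable under `D_A` (no finiteness, no analyticity of the conjugation is needed).
* `hopfConclusion_core` : hence (FF-G descent, FF-H packing of `S19lib`, generic in `Γ`) the core has a finite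
  flat model over `ℤ_(ℓ)`: `HopfConclusion ℓ (core K)`; `hasFlatModel_core` is the `S32lib.HasFlatModel` form.
-/
import Mathlib
import Fermat.Agent.S19lib.Iface
import Fermat.Agent.S19lib.F.ToIface
import Fermat.Agent.S19lib.Lead.Descent
import Fermat.Agent.S19lib.H.Pack
import Fermat.Agent.S32lib.FM.Defs

set_option autoImplicit false
set_option linter.unusedSectionVars false
set_option linter.style.haveILetI false

noncomputable section

namespace Fermat.Agent.S59lib.FlatSS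

open Fermat.Agent.S19lib

local notation "Qb" => AlgebraicClosure ℚ
local notation "GQ" => (AlgebraicClosure ℚ ≃ₐ[ℚ] AlgebraicClosure ℚ)

variable {A : ValuationSubring Qb} {ℓ : ℕ} {J : Type} [AddCommGroup J] [DistribMulAction GQ J]

/-! ### the core -/

/-- the largest `G_ℚ`-stable subgroup of `K` -/
def core (K : AddSubgroup J) : AddSubgroup J where
  carrier := {x | ∀ g : GQ, g • x ∈ K}
  zero_mem' := fun g => by rw [smul_zero]; exact K.zero_mem
  add_mem' := fun {a b} ha hb g => by rw [smul_add]; exact K.add_mem (ha g) (hb g)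
  neg_mem' := fun {a} ha g => by rw [smul_neg]; exact K.neg_mem (ha g)

theorem mem_core_iff (K : AddSubgroup J) (x : J) : x ∈ core K ↔ ∀ g : GQ, g • x ∈ K := Iff.rfl

theorem core_le (K : AddSubgroup J) : core K ≤ K := fun x hx => by
  have := hx 1
  rwa [one_smul] at this

theorem smul_mem_core (K : AddSubgroup J) (σ : GQ) {x : J} (hx : x ∈ core K) : σ • x ∈ core K :=
  fun g => by rw [← mul_smul]; exact hx (g * σ)

theorem smul_mem_core_iff (K : AddSubgroup J) (σ : GQ) (x : J) : σ • x ∈ core K ↔ x ∈ core K :=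
  ⟨fun h => by
    have := smul_mem_core K σ⁻¹ h
    rwa [inv_smul_smul] at this, smul_mem_core K σ⟩

/-- a `G_ℚ`-stable subgroup of `K` lies in the core -/
theorem le_core {K X : AddSubgroup J} (hX : X ≤ K) (hst : ∀ g : GQ, ∀ x ∈ X, g • x ∈ X) :
    X ≤ core K := fun x hx g => hX (hst g x hx)

/-! ### restriction of a Hopf order -/

section restrict

variable {R : Subring Qb} {U : Subgroup GQ} {K Γ : AddSubgroup J}

/-- **restriction of a Hopf order** to a subgroup `Γ ≤ K` which is saturated under `U`. -/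
def restrictOrder (O : HopfOrder A ℓ R U K) (hΓK : Γ ≤ K)
    (hiff : ∀ σ ∈ U, ∀ x : J, σ • x ∈ Γ ↔ x ∈ Γ) : HopfOrder A ℓ R U Γ where
  H := {ψ | ∃ φ ∈ O.H, ∀ x : Γ, ψ x = φ ⟨x, hΓK x.2⟩}
  one_mem := ⟨_, O.one_mem, fun _ => rfl⟩
  add_mem := by
    rintro _ ⟨φ, hφ, h1⟩ _ ⟨φ', hφ', h2⟩
    exact ⟨_, O.add_mem φ hφ φ' hφ', fun x => by simp only [h1, h2]⟩
  mul_mem := by
    rintro _ ⟨φ, hφ, h1⟩ _ ⟨φ', hφ', h2⟩
    exact ⟨_, O.mul_mem φ hφ φ' hφ', fun x => by simp only [h1, h2]⟩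
  smul_mem := by
    rintro r hr _ ⟨φ, hφ, h1⟩
    exact ⟨_, O.smul_mem r hr φ hφ, fun x => by simp only [h1]⟩
  equivariant := by
    rintro _ ⟨φ, hφ, h1⟩ σ hσ x y hxy
    rw [h1, h1]
    exact O.equivariant φ hφ σ hσ _ _ hxy
  integral := by
    rintro _ ⟨φ, hφ, h1⟩ x
    rw [h1]
    exact O.integral φ hφ _
  full := by
    classical
    intro ψ hψ
    -- extension by zero
    let φ : K → Qb := fun x => if h : (x : J) ∈ Γ then ψ ⟨x, h⟩ else 0
    have hφ : ∀ σ ∈ U, ∀ (x y : K), (y : J) = σ • (x : J) → φ y = σ (φ x) := by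
      intro σ hσ x y hxy
      by_cases hx : (x : J) ∈ Γ
      · have hy : (y : J) ∈ Γ := by rw [hxy]; exact (hiff σ hσ _).2 hx
        show (if h : (y : J) ∈ Γ then ψ ⟨y, h⟩ else 0) = σ (if h : (x : J) ∈ Γ then ψ ⟨x, h⟩ else 0)
        rw [dif_pos hx, dif_pos hy]
        exact hψ σ hσ ⟨x, hx⟩ ⟨y, hy⟩ hxy
      · have hy : (y : J) ∉ Γ := by rw [hxy]; exact fun h => hx ((hiff σ hσ _).1 h)
        show (if h : (y : J) ∈ Γ then ψ ⟨y, h⟩ else 0) = σ (if h : (x : J) ∈ Γ then ψ ⟨x, h⟩ else 0)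
        rw [dif_neg hx, dif_neg hy, map_zero]
    obtain ⟨n, hn⟩ := O.full φ hφ
    refine ⟨n, _, hn, fun x => ?_⟩
    show _ = ((ℓ : ℕ) : Qb) ^ n * (if h : (x : J) ∈ Γ then ψ ⟨x, h⟩ else 0)
    rw [dif_pos x.2]
  comul := by
    rintro _ ⟨φ, hφ, h1⟩
    obtain ⟨n, ψ, ψ', hψ, hψ', h⟩ := O.comul φ hφ
    refine ⟨n, fun i x => ψ i ⟨x, hΓK x.2⟩, fun i x => ψ' i ⟨x, hΓK x.2⟩,
      fun i => ⟨ψ i, hψ i, fun _ => rfl⟩, fun i => ⟨ψ' i, hψ' i, fun _ => rfl⟩, fun x y => ?_⟩
    rw [h1]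
    exact h ⟨x, hΓK x.2⟩ ⟨y, hΓK y.2⟩
  antipode := by
    rintro _ ⟨φ, hφ, h1⟩
    exact ⟨_, O.antipode φ hφ, fun x => by simp only [h1]; rfl⟩

end restrict

/-! ### saturation under the decomposition group -/

section sat

variable {Γ : AddSubgroup J} (hst : ∀ σ : GQ, ∀ x ∈ Γ, σ • x ∈ Γ)

/-- the conjugate `y ↦ σ (φ (σ⁻¹ y))` of a function on a `G_ℚ`-stable subgroup -/
def conjFun (σ : GQ) (φ : Γ → Qb) : Γ → Qb := fun y => σ (φ (F.galMap Γ hst σ⁻¹ y))

theorem conjFun_apply (σ : GQ) (φ : Γ → Qb) (y : Γ) :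
    conjFun hst σ φ y = σ (φ (F.galMap Γ hst σ⁻¹ y)) := rfl

theorem galMap_add (σ : GQ) (x y : Γ) :
    F.galMap Γ hst σ (x + y) = F.galMap Γ hst σ x + F.galMap Γ hst σ y :=
  Subtype.ext (smul_add σ (x : J) (y : J))

theorem galMap_neg (σ : GQ) (x : Γ) : F.galMap Γ hst σ (-x) = -F.galMap Γ hst σ x :=
  Subtype.ext (smul_neg σ (x : J))

theorem galMap_galMap (σ τ : GQ) (x : Γ) :
    F.galMap Γ hst σ (F.galMap Γ hst τ x) = F.galMap Γ hst (σ * τ) x :=
  Subtype.ext (mul_smul σ τ (x : J)).symm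

/-- `A0` is stable under the decomposition group -/
theorem map_mem_A0 {σ : GQ} (hσ : σ ∈ DA A) {r : Qb} (hr : r ∈ A0 A) : σ r ∈ A0 A := by
  refine ⟨F.smul_mem_of_mem_DA hσ hr.1, fun τ hτ => ?_⟩
  have h1 := hr.2 _ (F.conj_mem_IA hσ hτ)
  have h2 : τ (σ r) = σ ((σ⁻¹ * τ * σ) r) := by
    simp [AlgEquiv.mul_apply]
  rw [h2, h1]

/-- the closure of the `D_A`-conjugates of an order under the `A0`-algebra operations -/
inductive SatMem (O : HopfOrder A ℓ (A0 A) (IA A) Γ) : (Γ → Qb) → Prop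
  | gen (σ : GQ) (hσ : σ ∈ DA A) (φ : Γ → Qb) (hφ : φ ∈ O.H) : SatMem O (conjFun hst σ φ)
  | const (r : Qb) (hr : r ∈ A0 A) : SatMem O (fun _ => r)
  | add (φ ψ : Γ → Qb) : SatMem O φ → SatMem O ψ → SatMem O (fun x => φ x + ψ x)
  | mul (φ ψ : Γ → Qb) : SatMem O φ → SatMem O ψ → SatMem O (fun x => φ x * ψ x)

variable {hst}

theorem satMem_of_mem (O : HopfOrder A ℓ (A0 A) (IA A) Γ) {φ : Γ → Qb} (hφ : φ ∈ O.H) :
    SatMem hst O φ := by
  have h := SatMem.gen (hst := hst) (O := O) 1 (DA A).one_mem φ hφ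
  have e : conjFun hst 1 φ = φ := by
    funext y
    rw [conjFun_apply]
    have : F.galMap Γ hst (1 : GQ)⁻¹ y = y := Subtype.ext (by
      show (1 : GQ)⁻¹ • (y : J) = y
      rw [inv_one, one_smul])
    rw [this]
    rfl
  rwa [e] at h

/-- the comultiplication of `φ` lies in `H ⊗ H` (any finite index type) -/
def HasComul (H : Set (Γ → Qb)) (φ : Γ → Qb) : Prop :=
  ∃ (ι : Type) (_ : Fintype ι) (ψ ψ' : ι → Γ → Qb), (∀ i, ψ i ∈ H) ∧ (∀ i, ψ' i ∈ H) ∧
    ∀ x y : Γ, φ (x + y) = ∑ i, ψ i x * ψ' i y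

theorem HasComul.to_fin {H : Set (Γ → Qb)} {φ : Γ → Qb} (h : HasComul H φ) :
    ∃ (n : ℕ) (ψ ψ' : Fin n → Γ → Qb), (∀ i, ψ i ∈ H) ∧ (∀ i, ψ' i ∈ H) ∧
      ∀ x y : Γ, φ (x + y) = ∑ i, ψ i x * ψ' i y := by
  obtain ⟨ι, _, ψ, ψ', h1, h2, h3⟩ := h
  let e := Fintype.equivFin ι
  refine ⟨Fintype.card ι, fun i => ψ (e.symm i), fun i => ψ' (e.symm i), fun i => h1 _,
    fun i => h2 _, fun x y => ?_⟩
  rw [h3]
  exact Fintype.sum_equiv e _ _ (fun i => by simp)

theorem hasComul_satMem (O : HopfOrder A ℓ (A0 A) (IA A) Γ) {φ : Γ → Qb} (h : SatMem hst O φ) :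
    HasComul {ψ | SatMem hst O ψ} φ := by
  induction h with
  | gen σ hσ φ hφ =>
    obtain ⟨n, ψ, ψ', h1, h2, h3⟩ := O.comul φ hφ
    refine ⟨Fin n, inferInstance, fun i => conjFun hst σ (ψ i), fun i => conjFun hst σ (ψ' i),
      fun i => SatMem.gen σ hσ _ (h1 i), fun i => SatMem.gen σ hσ _ (h2 i), fun x y => ?_⟩
    rw [conjFun_apply, galMap_add, h3, map_sum]
    refine Finset.sum_congr rfl fun i _ => ?_
    rw [map_mul]
    rfl
  | const r hr =>
    refine ⟨Unit, inferInstance, fun _ _ => r, fun _ _ => 1, fun _ => SatMem.const r hr,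
      fun _ => SatMem.const 1 (A0 A).one_mem, fun x y => ?_⟩
    simp
  | add φ ψ _ _ ih1 ih2 =>
    obtain ⟨ι, _, a, a', ha, ha', h1⟩ := ih1
    obtain ⟨κ, _, b, b', hb, hb', h2⟩ := ih2
    refine ⟨ι ⊕ κ, inferInstance, Sum.elim a b, Sum.elim a' b', ?_, ?_, fun x y => ?_⟩
    · rintro (i | i)
      · exact ha i
      · exact hb i
    · rintro (i | i)
      · exact ha' i
      · exact hb' i
    · beta_reduce
      rw [Fintype.sum_sum_type]
      simp only [Sum.elim_inl, Sum.elim_inr]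
      rw [← h1, ← h2]
  | mul φ ψ _ _ ih1 ih2 =>
    obtain ⟨ι, _, a, a', ha, ha', h1⟩ := ih1
    obtain ⟨κ, _, b, b', hb, hb', h2⟩ := ih2
    refine ⟨ι × κ, inferInstance, fun q x => a q.1 x * b q.2 x, fun q x => a' q.1 x * b' q.2 x,
      fun q => SatMem.mul _ _ (ha q.1) (hb q.2), fun q => SatMem.mul _ _ (ha' q.1) (hb' q.2),
      fun x y => ?_⟩
    beta_reduce
    rw [h1, h2, Finset.sum_mul_sum, Fintype.sum_prod_type]
    refine Finset.sum_congr rfl fun i _ => Finset.sum_congr rfl fun j _ => ?_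
    ring

variable (hst)

/-- **the `D_A`-saturation of a Hopf order** on a `G_ℚ`-stable subgroup. -/
def satOrder (O : HopfOrder A ℓ (A0 A) (IA A) Γ) : HopfOrder A ℓ (A0 A) (IA A) Γ where
  H := {ψ | SatMem hst O ψ}
  one_mem := SatMem.const 1 (A0 A).one_mem
  add_mem := fun φ hφ ψ hψ => SatMem.add φ ψ hφ hψ
  mul_mem := fun φ hφ ψ hψ => SatMem.mul φ ψ hφ hψ
  smul_mem := fun r hr φ hφ => SatMem.mul _ φ (SatMem.const r hr) hφ
  equivariant := by
    intro φ hφ
    induction hφ with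
    | gen σ hσ φ hφ =>
      intro τ hτ x y hxy
      rw [conjFun_apply, conjFun_apply]
      have hc := F.conj_mem_IA hσ hτ
      have h1 := O.equivariant φ hφ _ hc (F.galMap Γ hst σ⁻¹ x) (F.galMap Γ hst σ⁻¹ y) (by
        show σ⁻¹ • (y : J) = (σ⁻¹ * τ * σ) • σ⁻¹ • (x : J)
        rw [hxy, mul_smul, mul_smul, smul_inv_smul])
      rw [h1]
      simp [AlgEquiv.mul_apply]
    | const r hr =>
      intro τ hτ x y _
      exact (hr.2 τ hτ).symm
    | add φ ψ _ _ ih1 ih2 =>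
      intro τ hτ x y hxy
      beta_reduce
      rw [ih1 τ hτ x y hxy, ih2 τ hτ x y hxy, map_add]
    | mul φ ψ _ _ ih1 ih2 =>
      intro τ hτ x y hxy
      beta_reduce
      rw [ih1 τ hτ x y hxy, ih2 τ hτ x y hxy, map_mul]
  integral := by
    intro φ hφ
    induction hφ with
    | gen σ hσ φ hφ =>
      intro x
      exact F.smul_mem_of_mem_DA hσ (O.integral φ hφ _)
    | const r hr => exact fun _ => hr.1
    | add φ ψ _ _ ih1 ih2 => exact fun x => A.add_mem _ _ (ih1 x) (ih2 x)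
    | mul φ ψ _ _ ih1 ih2 => exact fun x => A.mul_mem _ _ (ih1 x) (ih2 x)
  full := by
    intro φ hφ
    obtain ⟨n, hn⟩ := O.full φ hφ
    exact ⟨n, satMem_of_mem O hn⟩
  comul := fun φ hφ => (hasComul_satMem O hφ).to_fin
  antipode := by
    intro φ hφ
    induction hφ with
    | gen σ hσ φ hφ =>
      have h := SatMem.gen (hst := hst) σ hσ _ (O.antipode φ hφ)
      have e : conjFun hst σ (fun x => φ (-x)) = fun x => conjFun hst σ φ (-x) := by
        funext y
        rw [conjFun_apply, conjFun_apply, galMap_neg]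
      rwa [e] at h
    | const r hr => exact SatMem.const r hr
    | add φ ψ _ _ ih1 ih2 => exact SatMem.add _ _ ih1 ih2
    | mul φ ψ _ _ ih1 ih2 => exact SatMem.mul _ _ ih1 ih2

theorem satOrder_stableUnder (O : HopfOrder A ℓ (A0 A) (IA A) Γ) :
    (satOrder hst O).StableUnder (DA A) := by
  intro σ hσ φ hφ
  induction hφ with
  | gen τ hτ φ hφ =>
    intro ψ hψ
    have e : ψ = conjFun hst (σ * τ) φ := by
      funext y
      have h1 := hψ (F.galMap Γ hst σ⁻¹ y) y (by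
        show (y : J) = σ • σ⁻¹ • (y : J)
        rw [smul_inv_smul])
      rw [h1, conjFun_apply, conjFun_apply, galMap_galMap, mul_inv_rev]
      rfl
    rw [e]
    exact SatMem.gen _ ((DA A).mul_mem hσ hτ) φ hφ
  | const r hr =>
    intro ψ hψ
    have e : ψ = fun _ => σ r := by
      funext y
      exact hψ (F.galMap Γ hst σ⁻¹ y) y (by
        show (y : J) = σ • σ⁻¹ • (y : J)
        rw [smul_inv_smul])
    rw [e]
    exact SatMem.const _ (map_mem_A0 hσ hr)
  | add φ φ' _ _ ih1 ih2 =>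
    intro ψ hψ
    have e : ψ = fun y => conjFun hst σ φ y + conjFun hst σ φ' y := by
      funext y
      have h1 := hψ (F.galMap Γ hst σ⁻¹ y) y (by
        show (y : J) = σ • σ⁻¹ • (y : J)
        rw [smul_inv_smul])
      rw [h1, map_add]
      rfl
    rw [e]
    refine SatMem.add _ _ (ih1 _ fun x y hxy => ?_) (ih2 _ fun x y hxy => ?_)
    · rw [conjFun_apply]
      congr 2
      exact Subtype.ext (by
        show σ⁻¹ • (y : J) = x
        rw [hxy, inv_smul_smul])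
    · rw [conjFun_apply]
      congr 2
      exact Subtype.ext (by
        show σ⁻¹ • (y : J) = x
        rw [hxy, inv_smul_smul])
  | mul φ φ' _ _ ih1 ih2 =>
    intro ψ hψ
    have e : ψ = fun y => conjFun hst σ φ y * conjFun hst σ φ' y := by
      funext y
      have h1 := hψ (F.galMap Γ hst σ⁻¹ y) y (by
        show (y : J) = σ • σ⁻¹ • (y : J)
        rw [smul_inv_smul])
      rw [h1, map_mul]
      rfl
    rw [e]
    refine SatMem.mul _ _ (ih1 _ fun x y hxy => ?_) (ih2 _ fun x y hxy => ?_)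
    · rw [conjFun_apply]
      congr 2
      exact Subtype.ext (by
        show σ⁻¹ • (y : J) = x
        rw [hxy, inv_smul_smul])
    · rw [conjFun_apply]
      congr 2
      exact Subtype.ext (by
        show σ⁻¹ • (y : J) = x
        rw [hxy, inv_smul_smul])

end sat

/-! ### the finite flat model of the core -/

/-- **the core of a subgroup carrying an `A0`-Hopf order has a finite flat model.** -/
theorem hopfConclusion_core [Fact ℓ.Prime] (hA : A.LiesOverPrime ℓ) {Tn K : AddSubgroup J}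
    (hTn : IsFiniteGaloisSubmodule Tn) (hK : K ≤ Tn)
    (O : HopfOrder A ℓ (A0 A) (IA A) K) : HopfConclusion ℓ (core K) := by
  have hst : ∀ σ : GQ, ∀ x ∈ core K, σ • x ∈ core K := fun σ x hx => smul_mem_core K σ hx
  have hΓ : IsFiniteGaloisSubmodule (core K) := hTn.of_le ((core_le K).trans hK) hst
  let O₁ : HopfOrder A ℓ (A0 A) (IA A) (core K) :=
    restrictOrder O (core_le K) (fun σ _ x => smul_mem_core_iff K σ x)
  obtain ⟨O₂⟩ := Fermat.Agent.S19lib.Lead.descentStmt ℓ A hA J (core K) hΓ (satOrder hst O₁)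
    (satOrder_stableUnder hst O₁)
  exact Fermat.Agent.S19lib.H.packStmt ℓ A hA J (core K) hΓ O₂

/-- the same, in the form of `S32lib.HasFlatModel` -/
theorem hasFlatModel_core [Fact ℓ.Prime] (hA : A.LiesOverPrime ℓ) {Tn K : AddSubgroup J}
    (hTn : IsFiniteGaloisSubmodule Tn) (hK : K ≤ Tn)
    (O : HopfOrder A ℓ (A0 A) (IA A) K) :
    Fermat.Agent.S32lib.HasFlatModel ℓ (core K)
      (fun σ x => ⟨σ • (x : J), smul_mem_core K σ x.2⟩) := by
  obtain ⟨H, i1, i2, h1, h2, h3, e, hadd, hgal⟩ := hopfConclusion_core hA hTn hK O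
  exact ⟨H, i1, i2, h1, h2, h3, e, hadd, fun σ f g hfg => Subtype.ext (hgal σ f g hfg)⟩

end Fermat.Agent.S59lib.FlatSS

end
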