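/-
S59lib / FlatSS / Span  (helper6)  — Project I, block FLAT-SS.

NAKAYAMA: if the residual representation `ρ̄` of `ρ : G_ℚ → GL₂(T)` has no non-zero functional invariant
under a set `I ⊆ G_ℚ` (no `I`-coinvariants: `ρ̄|I_p` irreducible, the supersingular case), then the vectors
`ρ(σ) v - v`, `σ ∈ I`, span `ρ.V` over `T`; hence every vector is a finite sum of
`(ρ σ - 1)(ρ τ - 1) w`, `σ, τ ∈ I`.

* `span_sub_eq_top`        : `span_T {ρ σ v - v} = ⊤`;
* `InSq`, `inSq_of_span`   : the additive closure of `{(ρ σ - 1)(ρ τ - 1) w}` is everything.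
-/
import Mathlib
import Fermat.Prelude.Def_GaloisRep_Adic

set_option autoImplicit false
set_option linter.unusedSectionVars false
set_option linter.style.haveILetI false

noncomputable section

namespace Fermat.Agent.S59lib.FlatSS

open IsLocalRing TensorProduct

local notation "Qb" => AlgebraicClosure ℚ
local notation "GQ" => (AlgebraicClosure ℚ ≃ₐ[ℚ] AlgebraicClosure ℚ)

variable {T : Type} [CommRing T] [IsLocalRing T] (ρ : GaloisRepAdic T)

/-- the generators `ρ σ v - v`, `σ ∈ I` -/
def subSet (I : Set GQ) : Set ρ.V := {x | ∃ σ ∈ I, ∃ v : ρ.V, x = ρ.ρ σ v - v}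

/-- **no residual coinvariants ⇒ the `ρ σ v - v` span `ρ.V`** (Nakayama). -/
theorem span_sub_eq_top (I : Set GQ)
    (hss : ∀ f : ρ.residual.V →ₗ[ResidueField T] ResidueField T,
      (∀ σ ∈ I, ∀ x : ρ.residual.V, f (ρ.residual.ρ σ x) = f x) → f = 0) :
    Submodule.span T (subSet ρ I) = ⊤ := by
  classical
  let k := ResidueField T
  rw [← IsLocalRing.map_tensorProduct_mk_eq_top]
  set L' : Submodule T (k ⊗[T] ρ.V) :=
    (Submodule.span T (subSet ρ I)).map (TensorProduct.mk T k ρ.V 1) with hL'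
  let Lb : Submodule k (k ⊗[T] ρ.V) := Submodule.span k (L' : Set (k ⊗[T] ρ.V))
  have hres : Lb.restrictScalars T = L' := by
    have h1 := Submodule.restrictScalars_span T k (IsLocalRing.residue_surjective (R := T))
      (L' : Set (k ⊗[T] ρ.V))
    rw [Submodule.span_eq] at h1
    exact h1
  have hLb : Lb = ⊤ := by
    by_contra hne
    obtain ⟨f, hf0, hf⟩ := Submodule.exists_le_ker_of_lt_top Lb (lt_top_iff_ne_top.2 hne)
    apply hf0
    apply hss f
    intro σ hσ x
    have key : ∀ x : k ⊗[T] ρ.V, (ρ.ρ σ).baseChange k x - x ∈ Lb := by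
      intro x
      induction x using TensorProduct.induction_on with
      | zero => simp
      | tmul c v =>
        rw [LinearMap.baseChange_tmul, ← TensorProduct.tmul_sub]
        have h1 : (1 : k) ⊗ₜ[T] (ρ.ρ σ v - v) ∈ L' :=
          ⟨ρ.ρ σ v - v, Submodule.subset_span ⟨σ, hσ, v, rfl⟩, rfl⟩
        have h2 : c ⊗ₜ[T] (ρ.ρ σ v - v) = c • ((1 : k) ⊗ₜ[T] (ρ.ρ σ v - v)) := by
          rw [TensorProduct.smul_tmul', smul_eq_mul, mul_one]
        rw [h2]
        exact Lb.smul_mem c (Submodule.subset_span h1)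
      | add x y hx hy =>
        rw [map_add, add_sub_add_comm]
        exact Lb.add_mem hx hy
    have h3 := hf (key x)
    rw [LinearMap.mem_ker, map_sub, sub_eq_zero] at h3
    exact h3
  rw [← hres, hLb]
  rfl

/-- the additive closure of the `(ρ σ - 1)(ρ τ - 1) w`, `σ, τ ∈ I` -/
def sqClosure (I : Set GQ) : AddSubgroup ρ.V :=
  AddSubgroup.closure {x | ∃ σ ∈ I, ∃ τ ∈ I, ∃ w : ρ.V,
    x = ρ.ρ σ (ρ.ρ τ w - w) - (ρ.ρ τ w - w)}

/-- if the `ρ σ v - v` span `ρ.V` over `T`, every vector is a sum of `(ρ σ - 1)(ρ τ - 1) w`. -/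
theorem sqClosure_eq_top (I : Set GQ) (h : Submodule.span T (subSet ρ I) = ⊤) :
    sqClosure ρ I = ⊤ := by
  -- every vector is an additive combination of the `ρ σ v - v`
  have hsm : ∀ (t : T) (x : ρ.V), x ∈ AddSubgroup.closure (subSet ρ I) →
      t • x ∈ AddSubgroup.closure (subSet ρ I) := by
    intro t x hx
    induction hx using AddSubgroup.closure_induction with
    | mem y hy =>
      obtain ⟨σ, hσ, w, rfl⟩ := hy
      refine AddSubgroup.subset_closure ⟨σ, hσ, t • w, ?_⟩
      rw [smul_sub, map_smul]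
    | zero => rw [smul_zero]; exact AddSubgroup.zero_mem _
    | add y z _ _ hy hz => rw [smul_add]; exact AddSubgroup.add_mem _ hy hz
    | neg y _ hy => rw [smul_neg]; exact AddSubgroup.neg_mem _ hy
  have h1 : ∀ v : ρ.V, v ∈ AddSubgroup.closure (subSet ρ I) := by
    intro v
    have hv : v ∈ Submodule.span T (subSet ρ I) := by rw [h]; trivial
    induction hv using Submodule.span_induction with
    | mem x hx => exact AddSubgroup.subset_closure hx
    | zero => exact AddSubgroup.zero_mem _
    | add x y _ _ hx hy => exact AddSubgroup.add_mem _ hx hy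
    | smul t x _ hx => exact hsm t x hx
  -- apply `ρ σ - 1` once more
  have h2 : ∀ σ ∈ I, ∀ v : ρ.V, ρ.ρ σ v - v ∈ sqClosure ρ I := by
    intro σ hσ v
    have hv := h1 v
    induction hv using AddSubgroup.closure_induction with
    | mem y hy =>
      obtain ⟨τ, hτ, w, rfl⟩ := hy
      exact AddSubgroup.subset_closure ⟨σ, hσ, τ, hτ, w, rfl⟩
    | zero => simp
    | add y z _ _ hy hz =>
      rw [map_add, add_sub_add_comm]
      exact AddSubgroup.add_mem _ hy hz
    | neg y _ hy =>
      rw [map_neg, neg_sub_neg, ← neg_sub]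
      exact AddSubgroup.neg_mem _ hy
  have h3 : ∀ v : ρ.V, v ∈ sqClosure ρ I := by
    intro v
    have hv := h1 v
    induction hv using AddSubgroup.closure_induction with
    | mem y hy =>
      obtain ⟨σ, hσ, w, rfl⟩ := hy
      exact h2 σ hσ w
    | zero => exact AddSubgroup.zero_mem _
    | add y z _ _ hy hz => exact AddSubgroup.add_mem _ hy hz
    | neg y _ hy => exact AddSubgroup.neg_mem _ hy
  rw [eq_top_iff]
  exact fun v _ => h3 v

end Fermat.Agent.S59lib.FlatSS

end
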