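/-
S59lib / FlatSS / Piece  (helper6)  — Project I, block FLAT-SS.

THE PER-CHARACTER PIECE, `p ∥ N`, NO INERTIA COINVARIANTS.

Situation of the frozen S33 (`p` odd, `p ∥ N`, a Hecke–Galois datum `H` over `T`), a place `A ∣ p`, and
`ρ.V = ∑_{σ, τ ∈ I_A} (ρ σ - 1)(ρ τ - 1) ρ.V` (`sqClosure H.ρ I_A = ⊤`; from `FlatSS/Span` when `ρ̄|I_A` has no
coinvariants).  For a character `ψ : T → O₁` the lattice `Λ_ψ ⊆ T_p J₀(N) ⊗ O₂` of `S32lib/Lat` gives, for every
level `𝔞 = (p^a)`, an equivariant map `f₀ : ρ.V → (O₂/𝔞)^r`; composed with the embedding `emapQ` of `FlatSS/Emb`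
(and with a transfer `pull : J₀(N) → J₀(N')`, the identity unless `p = 3`, `4 ∤ N`) it lands in

  `(core K)^Λ`,   `K ≤ J₀(N')[p^n]` the subgroup of `S33lib.PFiltStmt` (`(σ-1)(τ-1) J₀(N')[p^n] ⊆ K`),

because the image is `G_ℚ`-stable and equal to its own `∑ (σ-1)(τ-1)`.  The core carries a finite flat model
(`FlatSS/Order`); hence so does the piece `ρ.V / (ker ψ + p^m) ρ.V`, a quotient of the image.

* `PullData`             : the transfer (equivariant, kernel killed by `p^c u`, `(u, p) = 1`);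
* `hasFlatModel_piece_ss` : the piece.
-/
import Mathlib
import Fermat.Agent.S32lib.Lat.Piece
import Fermat.Agent.S59lib.FlatSS.Order
import Fermat.Agent.S59lib.FlatSS.Span
import Fermat.Agent.S59lib.FlatSS.Emb

set_option autoImplicit false
set_option linter.unusedSectionVars false
set_option linter.style.haveILetI false

noncomputable section

namespace Fermat.Agent.S59lib.FlatSS

open IsLocalRing Matrix Fermat.Agent.S31lib.RG Fermat.Agent.S31lib.TC Fermat.Agent.S29lib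
  Fermat.Agent.S29lib.E Fermat.Agent.S29lib.S30 Fermat.Agent.S32lib Fermat.Agent.S19lib CuspForm
  ModularCurve

local notation "Qb" => AlgebraicClosure ℚ
local notation "GQ" => (AlgebraicClosure ℚ ≃ₐ[ℚ] AlgebraicClosure ℚ)

/-- **transfer data**: an equivariant additive map `J₀(N) → J₀(N')` whose kernel is killed by `p^c u`,
`(u, p) = 1`. -/
structure PullData (N N' p : ℕ) [NeZero N] [NeZero N'] where
  /-- the map -/
  pull : JZero N →+ JZero N'
  smul : ∀ (σ : GQ) (x : JZero N), pull (σ • x) = σ • pull x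
  /-- the exponent of `p` -/
  c : ℕ
  /-- the prime-to-`p` part -/
  u : ℕ
  cop : Nat.Coprime u p
  ker : ∀ x : JZero N, pull x = 0 → (p ^ c * u) • x = 0

/-- the identity transfer -/
def PullData.id (N p : ℕ) [NeZero N] : PullData N N p where
  pull := AddMonoidHom.id _
  smul := fun _ _ => rfl
  c := 0
  u := 1
  cop := Nat.coprime_one_left p
  ker := fun x hx => by
    have : x = 0 := hx
    rw [this, smul_zero]

section alg

variable {T : Type} [CommRing T] [IsLocalRing T] {V : Type} [AddCommGroup V] [Module T V]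

/-- a natural number prime to `p ∈ 𝔪_T` is a unit of `T` -/
theorem isUnit_natCast_of_coprime {p u : ℕ} (hpT : (p : T) ∈ maximalIdeal T) (hu : Nat.Coprime u p) :
    IsUnit ((u : ℕ) : T) := by
  obtain ⟨a, b, hab⟩ : ∃ a b : ℤ, a * (u : ℤ) + b * (p : ℤ) = 1 :=
    (Nat.isCoprime_iff_coprime.2 hu)
  have h1 : ((a : ℤ) : T) * ((u : ℕ) : T) = 1 - ((b : ℤ) : T) * ((p : ℕ) : T) := by
    have := congrArg (Int.cast : ℤ → T) hab
    push_cast at this
    rw [← this]
    ring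
  have h2 : IsUnit (1 - ((b : ℤ) : T) * ((p : ℕ) : T)) := by
    by_contra hnu
    have h3 : (1 - ((b : ℤ) : T) * ((p : ℕ) : T)) ∈ maximalIdeal T := (mem_maximalIdeal _).2 hnu
    have h4 : ((b : ℤ) : T) * ((p : ℕ) : T) ∈ maximalIdeal T := Ideal.mul_mem_left _ _ hpT
    have h5 : (1 : T) ∈ maximalIdeal T := by
      have := Ideal.add_mem _ h3 h4
      rwa [sub_add_cancel] at this
    exact (Ideal.ne_top_iff_one _).1 (maximalIdeal.isMaximal T).ne_top h5
  rw [← h1] at h2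
  exact isUnit_of_mul_isUnit_right h2

/-- division by `p^c u` on `V / (ker ψ) V`, `ψ : T → O₁` into a domain of characteristic zero -/
theorem mem_of_nsmul_mem {O₁ : Type} [CommRing O₁] [IsDomain O₁] [CharZero O₁] (ψ : T →+* O₁)
    {ι : Type} (b : Module.Basis ι T V) {p c u m : ℕ} (hp : p.Prime) (hu : IsUnit ((u : ℕ) : T))
    (v : V)
    (h : (p ^ c * u) • v ∈
      (RingHom.ker ψ ⊔ Ideal.span {(p : T) ^ (m + c)}) • (⊤ : Submodule T V)) :
    v ∈ (RingHom.ker ψ ⊔ Ideal.span {(p : T) ^ m}) • (⊤ : Submodule T V) := by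
  rw [mem_smul_top_iff_repr b] at h ⊢
  intro k
  have hk := h k
  rw [map_nsmul, Finsupp.smul_apply, nsmul_eq_mul] at hk
  obtain ⟨y, hy, z, hz, hyz⟩ := Submodule.mem_sup.1 hk
  obtain ⟨t, rfl⟩ := Ideal.mem_span_singleton'.1 hz
  have hy0 : ψ y = 0 := hy
  have hp0 : ((p : ℕ) : O₁) ≠ 0 := Nat.cast_ne_zero.2 hp.ne_zero
  -- `u ψ(r) = ψ(t) p^m`
  have h1 : ((u : ℕ) : O₁) * ψ (b.repr v k) = ψ t * ((p : ℕ) : O₁) ^ m := by
    have h2 := congrArg ψ hyz
    rw [map_add, hy0, zero_add, map_mul, map_mul, map_pow, map_natCast, map_natCast] at h2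
    push_cast at h2
    have h3 : ((p : ℕ) : O₁) ^ c * (ψ t * ((p : ℕ) : O₁) ^ m) =
        ((p : ℕ) : O₁) ^ c * (((u : ℕ) : O₁) * ψ (b.repr v k)) := by
      rw [← mul_assoc ((p : O₁) ^ c) ((u : ℕ) : O₁), ← h2]
      ring
    exact (mul_left_cancel₀ (pow_ne_zero c hp0) h3).symm
  have h4 : ((u : ℕ) : T) * b.repr v k ∈ RingHom.ker ψ ⊔ Ideal.span {(p : T) ^ m} := by
    have h5 : ((u : ℕ) : T) * b.repr v k - t * (p : T) ^ m ∈ RingHom.ker ψ := by
      rw [RingHom.mem_ker, map_sub, map_mul, map_mul, map_pow, map_natCast, map_natCast, h1, sub_self]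
    have h6 : ((u : ℕ) : T) * b.repr v k =
        (((u : ℕ) : T) * b.repr v k - t * (p : T) ^ m) + t * (p : T) ^ m := by ring
    rw [h6]
    exact Submodule.add_mem_sup h5 (Ideal.mem_span_singleton'.2 ⟨t, rfl⟩)
  obtain ⟨w, hw⟩ := hu.exists_left_inv
  have h7 : b.repr v k = w * (((u : ℕ) : T) * b.repr v k) := by
    rw [← mul_assoc, hw, one_mul]
  rw [h7]
  exact Ideal.mul_mem_left _ _ h4

end alg

variable {p : ℕ} {N : ℕ} [NeZero N] {S : Finset ℕ}
  {𝒪 : Type} [CommRing 𝒪] [IsDomain 𝒪] [IsDiscreteValuationRing 𝒪]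
  [IsAdicComplete (IsLocalRing.maximalIdeal 𝒪) 𝒪]
  {θ : CuspForm.heckeAlgebra N 2 (↑S : Set ℕ) →+* IsLocalRing.ResidueField 𝒪}
  {T : Type} [CommRing T] [IsLocalRing T] [IsNoetherianRing T]
  [IsAdicComplete (IsLocalRing.maximalIdeal T) T] [Algebra 𝒪 T] [IsLocalHom (algebraMap 𝒪 T)]
  [Module.Finite 𝒪 T] [Module.Free 𝒪 T]

/-- the hypothesis on the level `N'`: for every `n` a subgroup `K ≤ J₀(N')[p^n]` containing
`(σ-1)(τ-1) J₀(N')[p^n]` (`σ, τ ∈ I_A`) whose core has a finite flat model. -/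
def CoreFlatStmt (N' : ℕ) [NeZero N'] (p : ℕ) (A : ValuationSubring Qb) : Prop :=
  ∀ n : ℕ, ∃ K : AddSubgroup (JZero N'),
    (∀ σ ∈ IA A, ∀ τ ∈ IA A, ∀ x : JZero N', (p ^ n) • x = 0 →
      σ • (τ • x - x) - (τ • x - x) ∈ K) ∧
    HasFlatModel p (core K) (fun σ x => ⟨σ • (x : JZero N'), smul_mem_core K σ x.2⟩)

set_option maxHeartbeats 1000000 in
/-- **the per-character piece, no inertia coinvariants.** -/
theorem hasFlatModel_piece_ss
    (hp : p.Prime) (hp𝒪 : (p : 𝒪) ∈ IsLocalRing.maximalIdeal 𝒪)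
    (hpS : p ∈ S) (hNS : ∀ q : ℕ, q.Prime → q ∣ N → q ∈ S)
    (H : CuspForm.HeckeGaloisRepDatum N (↑S : Set ℕ) 𝒪 θ T)
    {N' : ℕ} [NeZero N'] (Pd : PullData N N' p)
    (A : ValuationSubring Qb) (hCF : CoreFlatStmt N' p A)
    (hsq : sqClosure H.ρ {σ | σ ∈ IA A} = ⊤)
    {O₁ : Type} [CommRing O₁] [IsDomain O₁] [IsDiscreteValuationRing O₁]
    [IsAdicComplete (maximalIdeal O₁) O₁] [Finite (ResidueField O₁)] [CharZero O₁]
    [Algebra 𝒪 O₁] [Module.Finite 𝒪 O₁] [IsLocalHom (algebraMap 𝒪 O₁)] (ψ : T →ₐ[𝒪] O₁)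
    (m : ℕ) :
    HasFlatModel p
      (H.ρ.V ⧸ ((RingHom.ker (ψ : T →+* O₁) ⊔ Ideal.span {(p : T) ^ m}) •
        (⊤ : Submodule T H.ρ.V)))
      (fun σ x =>
        H.ρ.levelAction (RingHom.ker (ψ : T →+* O₁) ⊔ Ideal.span {(p : T) ^ m}) σ x) := by
  classical
  haveI : Fact p.Prime := ⟨hp⟩
  let b : Module.Basis (Fin 2) T H.ρ.V := Module.finBasisOfFinrankEq T H.ρ.V H.ρ.finrank_eq
  obtain ⟨O₂, i1, i2, i3, i4, i5, i6, i7, i8, i9, hinj, Cd, hpO₂, w, Mw, hli, hact, hquad⟩ :=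
    exists_piece_setup hp hp𝒪 hpS hNS H b ψ
  obtain ⟨P, hPdet, hP⟩ := exists_intertwiner H.ρ b H.residual_absIrr
    ((algebraMap O₁ O₂).comp (ψ : T →+* O₁)) Mw hquad
  letI : Algebra 𝒪 O₂ := ((algebraMap O₁ O₂).comp (algebraMap 𝒪 O₁)).toAlgebra
  haveI : IsScalarTower 𝒪 O₁ O₂ := IsScalarTower.of_algebraMap_eq fun _ => rfl
  haveI : Module.Finite 𝒪 O₂ := Module.Finite.trans O₁ O₂
  let ψ₂ : T →ₐ[𝒪] O₂ := (IsScalarTower.toAlgHom 𝒪 O₁ O₂).comp ψ
  have hψ₂ : (ψ₂ : T →+* O₂) = (algebraMap O₁ O₂).comp (ψ : T →+* O₁) := rfl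
  have hker₂ : RingHom.ker (ψ₂ : T →+* O₂) = RingHom.ker (ψ : T →+* O₁) := by
    rw [hψ₂]
    exact RingHom.ker_comp_of_injective _ hinj
  haveI : IsNoetherian 𝒪 (Fin Cd.r → O₂) := inferInstance
  obtain ⟨c₀, hc₀⟩ := exists_emb_bound H.ρ b ψ₂ w P hli hPdet (p : 𝒪)
  have hpT : (p : T) ∈ maximalIdeal T := by
    have h1 : (p : T) = algebraMap 𝒪 T (p : 𝒪) := (map_natCast _ p).symm
    rw [h1]
    exact map_nonunit (algebraMap 𝒪 T) _ hp𝒪
  -- the level `𝔞 = (p^a)`, `a = (m + c) + c₀`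
  set a : ℕ := (m + Pd.c) + c₀ with ha
  have hp0 : (p : O₂) ^ a ≠ 0 := pow_ne_zero _ (Nat.cast_ne_zero.mpr hp.ne_zero)
  obtain ⟨n, hn⟩ := exists_pow_le_span hp0
  haveI : Finite (O₂ ⧸ maximalIdeal O₂) := inferInstanceAs (Finite (ResidueField O₂))
  haveI : Finite (O₂ ⧸ maximalIdeal O₂ ^ n) :=
    Ideal.finite_quotient_pow (IsNoetherian.noetherian _) n
  haveI : Finite (O₂ ⧸ Ideal.span {(p : O₂) ^ a}) :=
    Finite.of_surjective (Ideal.Quotient.factor hn) (Ideal.Quotient.factor_surjective hn)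
  letI : Fintype (O₂ ⧸ Ideal.span {(p : O₂) ^ a}) := Fintype.ofFinite _
  obtain ⟨K, hP2, hKmodel⟩ := hCF n
  -- the maps
  let f₀ : H.ρ.V →+ (Fin Cd.r → O₂ ⧸ Ideal.span {(p : O₂) ^ a}) :=
    (AddMonoidHom.compLeft
      (Ideal.Quotient.mk (Ideal.span {(p : O₂) ^ a})).toAddMonoidHom (Fin Cd.r)).comp
      (embHom H.ρ b (ψ₂ : T →+* O₂) w P)
  have hf₀_apply : ∀ v i, f₀ v i =
      Ideal.Quotient.mk (Ideal.span {(p : O₂) ^ a}) (emb H.ρ b (ψ₂ : T →+* O₂) w P v i) :=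
    fun v i => rfl
  have hf₀_equiv : ∀ (σ : GQ) (v : H.ρ.V),
      f₀ (H.ρ.ρ σ v) = actQuot Cd hpO₂ (Ideal.span {(p : O₂) ^ a}) σ (f₀ v) := by
    intro σ v
    funext i
    rw [hf₀_apply, emb_map H.ρ b (ψ₂ : T →+* O₂) w P
      (fun σ => galMatO (torsionSystemOf Cd) (maximalIdeal O₂) hpO₂ σ) (fun σ => Mw σ) hact
      (fun σ => hP σ) σ v, RingHom.map_mulVec]
    rfl
  -- the composite into `J₀(N')`
  let g₀ : H.ρ.V →+ (Lam p (Ideal.span {(p : O₂) ^ a}) n → JZero N') :=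
    { toFun := fun v lam =>
        Pd.pull ((emapQ Cd (Ideal.span {(p : O₂) ^ a}) n (f₀ v) lam : Tors N (p ^ n)) : JZero N)
      map_zero' := by
        funext lam
        rw [map_zero, map_zero]
        show Pd.pull ((0 : Tors N (p ^ n)) : JZero N) = 0
        rw [Submodule.coe_zero, map_zero]
      map_add' := by
        intro v v'
        funext lam
        rw [map_add, map_add]
        show Pd.pull ((_ + _ : Tors N (p ^ n)) : JZero N) = _
        rw [Submodule.coe_add, map_add]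
        rfl }
  have hg₀_apply : ∀ v lam, g₀ v lam =
      Pd.pull ((emapQ Cd (Ideal.span {(p : O₂) ^ a}) n (f₀ v) lam : Tors N (p ^ n)) : JZero N) :=
    fun _ _ => rfl
  have hg₀_equiv : ∀ (σ : GQ) (v : H.ρ.V) lam, g₀ (H.ρ.ρ σ v) lam = σ • g₀ v lam := by
    intro σ v lam
    rw [hg₀_apply, hg₀_apply, hf₀_equiv, emapQ_equivariant Cd hpO₂ _ n hn, coe_galTors, Pd.smul]
  have hg₀_tors : ∀ v lam, (p ^ n) • g₀ v lam = 0 := by
    intro v lam
    rw [hg₀_apply, ← map_nsmul]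
    have h1 : (p ^ n) • ((emapQ Cd (Ideal.span {(p : O₂) ^ a}) n (f₀ v) lam : Tors N (p ^ n)) :
        JZero N) = 0 := by
      have h2 := (emapQ Cd (Ideal.span {(p : O₂) ^ a}) n (f₀ v) lam).2
      rw [Submodule.mem_torsionBy_iff] at h2
      rw [← natCast_zsmul]
      exact h2
    rw [h1, map_zero]
  -- the values lie in `K`, hence in its core
  have hg₀_K : ∀ v lam, g₀ v lam ∈ K := by
    intro v lam
    have hv : v ∈ sqClosure H.ρ {σ | σ ∈ IA A} := by rw [hsq]; trivial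
    unfold sqClosure at hv
    induction hv using AddSubgroup.closure_induction with
    | mem y hy =>
      obtain ⟨σ, hσ, τ, hτ, w', rfl⟩ := hy
      have e : g₀ (H.ρ.ρ σ (H.ρ.ρ τ w' - w') - (H.ρ.ρ τ w' - w')) lam =
          σ • (τ • g₀ w' lam - g₀ w' lam) - (τ • g₀ w' lam - g₀ w' lam) := by
        rw [map_sub, Pi.sub_apply, hg₀_equiv, map_sub, Pi.sub_apply, hg₀_equiv]
      rw [e]
      exact hP2 σ hσ τ hτ _ (hg₀_tors w' lam)
    | zero => rw [map_zero]; exact K.zero_mem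
    | add y z _ _ hy hz => rw [map_add]; exact K.add_mem hy hz
    | neg y _ hy => rw [map_neg]; exact K.neg_mem hy
  have hg₀_core : ∀ v lam, g₀ v lam ∈ core K := by
    intro v lam g
    rw [← hg₀_equiv]
    exact hg₀_K _ _
  let f : H.ρ.V →+ (Lam p (Ideal.span {(p : O₂) ^ a}) n → ↥(core K)) :=
    { toFun := fun v lam => ⟨g₀ v lam, hg₀_core v lam⟩
      map_zero' := by
        funext lam
        apply Subtype.ext
        show g₀ 0 lam = 0
        rw [map_zero]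
        rfl
      map_add' := by
        intro v v'
        funext lam
        apply Subtype.ext
        show g₀ (v + v') lam = g₀ v lam + g₀ v' lam
        rw [map_add]
        rfl }
  have hmodel := hKmodel.pi (Lam p (Ideal.span {(p : O₂) ^ a}) n)
  have hu : IsUnit ((Pd.u : ℕ) : T) := isUnit_natCast_of_coprime hpT Pd.cop
  refine hmodel.of_subquotient (fun σ => (H.ρ.ρ σ).toAddMonoidHom) f
    (Submodule.mkQ _).toAddMonoidHom ?_ ?_ ?_ ?_
  · -- equivariance of `f`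
    intro σ v
    funext lam
    apply Subtype.ext
    exact hg₀_equiv σ v lam
  · -- equivariance of the quotient map
    intro σ v
    rfl
  · exact Submodule.mkQ_surjective _
  · -- the kernel
    intro v hv
    set d : ℕ := p ^ Pd.c * Pd.u with hd
    -- `f₀ (d • v) = 0`
    have h0 : f₀ (d • v) = 0 := by
      apply emapQ_injective Cd hpO₂ (Ideal.span {(p : O₂) ^ a}) n hn
      rw [map_zero]
      funext lam
      have h1 : g₀ v lam = 0 := congrArg (fun F : Lam p (Ideal.span {(p : O₂) ^ a}) n → ↥(core K) =>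
        ((F lam : ↥(core K)) : JZero N')) hv
      have h2 := Pd.ker _ h1
      apply Subtype.ext
      rw [map_nsmul, map_nsmul]
      show ((d • emapQ Cd (Ideal.span {(p : O₂) ^ a}) n (f₀ v) lam : Tors N (p ^ n)) : JZero N) = 0
      rw [Submodule.coe_smul_of_tower]
      exact h2
    have h1 : ∀ i, ∃ u' : O₂,
        emb H.ρ b (ψ₂ : T →+* O₂) w P (d • v) i = (p : O₂) ^ a * u' := by
      intro i
      have h2 := congrFun h0 i
      rw [hf₀_apply] at h2
      have h3 : emb H.ρ b (ψ₂ : T →+* O₂) w P (d • v) i ∈ Ideal.span {(p : O₂) ^ a} :=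
        Ideal.Quotient.eq_zero_iff_mem.mp h2
      obtain ⟨u', hu'⟩ := Ideal.mem_span_singleton'.mp h3
      exact ⟨u', by rw [← hu', mul_comm]⟩
    choose u' hu' using h1
    have h4 : emb H.ρ b (ψ₂ : T →+* O₂) w P (d • v) =
        algebraMap 𝒪 O₂ (p : 𝒪) ^ ((m + Pd.c) + c₀) • u' := by
      funext i
      rw [hu' i, map_natCast, Pi.smul_apply, smul_eq_mul]
    have h5 := hc₀ (d • v) (m + Pd.c) u' h4
    rw [hker₂, map_natCast] at h5
    have h6 := mem_of_nsmul_mem (ψ : T →+* O₁) b hp hu v h5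
    show Submodule.mkQ _ v = 0
    rw [Submodule.mkQ_apply, Submodule.Quotient.mk_eq_zero]
    exact h6

end Fermat.Agent.S59lib.FlatSS

end
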