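/-
S59lib / FlatSS / Main  (helper6)  — Project I, block FLAT-SS.

**FLAT-SS.**  In the situation of the frozen S33 (`p` odd, `p ∥ N`, `H : HeckeGaloisRepDatum N S 𝒪 θ T`), if the
residual representation `ρ̄` has NO non-zero functional invariant under the inertia groups at `p`
(`ρ̄|I_p` irreducible: the supersingular case), then `H.ρ` is FLAT at `p` — although `p` divides the level.

  `isFlatAt_of_noCoinvariants : (hypotheses of S33 without `hres`) → hss → H.ρ.IsFlatAt p`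

Proof.  `ρ.V = ∑ (ρ σ - 1)(ρ τ - 1) ρ.V`, `σ, τ ∈ I_A` (Nakayama, `FlatSS/Span`); so the `ψ`-lattices of all
characters `ψ : T → O₁` lie, at every finite level, in powers of the `G_ℚ`-core of the kernel of reduction
`K_n ≤ J₀(N')[p^n]` (`S33lib.PFiltStmt` (P2); `N' = N`, or `N' = 4N` when `p = 3`, `4 ∤ N`, transfer along the
pull-back `J₀(N) → J₀(4N)`), which carries a finite flat model (`FlatSS/Order`: restriction and `D_A`-saturation
of the connected `A0`-Hopf order of `K_n`, then FF-G, FF-H of `S19lib`).  `FlatSS/Piece` gives the pieces and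
`S32lib/Comb` combines them, as in the proof of S32.
-/
import Mathlib
import Fermat.Agent.S59lib.FlatSS.Piece
import Fermat.Agent.S32lib.Chars.Main
import Fermat.Agent.S32lib.Comb.Main
import Fermat.Agent.S31lib.PET.Main
import Fermat.Agent.S22
import Fermat.Agent.S19lib.T.Tors
import Fermat.Agent.S33lib.N.Geom
import Fermat.Agent.S33lib.Conn.XferMod
import Fermat.Agent.S13lib.PlaceOpen

set_option autoImplicit false
set_option linter.unusedSectionVars false
set_option linter.style.haveILetI false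

noncomputable section

namespace Fermat.Agent.S59lib.FlatSS

open IsLocalRing CuspForm Fermat.Agent.S32lib Fermat.Agent.S19lib Fermat.Agent.S33lib ModularCurve
open AlgebraicCurve AlgebraicCurve.SemilinearAut
open Fermat.Agent.S29lib Fermat.Agent.S37lib.HeckeInst Fermat.Agent.LSb.Xfer

local notation "Qb" => AlgebraicClosure ℚ
local notation "GQ" => (AlgebraicClosure ℚ ≃ₐ[ℚ] AlgebraicClosure ℚ)

/-! ### the core of the kernel of reduction is flat -/

/-- `(P)` at the level `N'` gives the hypothesis of `hasFlatModel_piece_ss`. -/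
theorem coreFlatStmt_of_pFilt {N' : ℕ} [NeZero N'] {p : ℕ} [Fact p.Prime]
    (hPF : PFiltStmt N' p) (A : ValuationSubring Qb) (hA : A.LiesOverPrime p) :
    CoreFlatStmt N' p A := by
  intro n
  have hp : p.Prime := Fact.out
  obtain ⟨K, hK, -, hP2, O, -⟩ := hPF A hA n
  have hT : IsFiniteGaloisSubmodule (tors N' ((p : ℤ) ^ n)) :=
    Fermat.Agent.S19lib.T.torsStmt N' _ (pow_ne_zero _ (by exact_mod_cast hp.ne_zero))
  refine ⟨K, fun σ hσ τ hτ x hx => ?_, hasFlatModel_core hA hT hK O⟩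
  exact hP2 σ hσ τ hτ x ((Fermat.Agent.S33lib.Conn.mem_tors_natPow_iff x).2 hx)

/-! ### the transfer `J₀(N) → J₀(N ℓ)` -/

/-- the pull-back along the degeneracy map `X₀(N ℓ) → X₀(N)` as transfer data -/
theorem exists_pullData_mul (N ℓ : ℕ) [NeZero N] [NeZero ℓ] [NeZero (N * ℓ)] {p : ℕ}
    (hp : p.Prime) : Nonempty (PullData N (N * ℓ) p) := by
  haveI := hasPrincipalDivisors_FB (N * ℓ)
  have hfin := finiteAlong_alpha N ℓ
  have hd : finrankAlong Qb (heckeAlphaBar Qb N ℓ) ≠ 0 := by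
    letI := algebraAlong (heckeAlphaBar Qb N ℓ)
    haveI : Module.Finite (FB N) (FB (N * ℓ)) := hfin
    exact (Module.finrank_pos (R := FB N) (M := FB (N * ℓ))).ne'
  obtain ⟨c, u, hu, hdd⟩ := Nat.exists_eq_pow_mul_and_not_dvd hd p hp.ne_one
  have hcop : Nat.Coprime u p := ((Nat.Prime.coprime_iff_not_dvd hp).2 hu).symm
  refine ⟨{
    pull := pic0PullbackAlong (heckeAlphaBar Qb N ℓ) (heckeAlphaBarIntegral N ℓ)
      (fundamentalIdentityAlong_alpha N ℓ)
    smul := fun σ x => pic0PullbackAlong_smul (heckeAlphaBar Qb N ℓ) (heckeAlphaBarIntegral N ℓ)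
      (fundamentalIdentityAlong_alpha N ℓ) (GH.intertwines_alpha N ℓ σ) x
    c := c
    u := u
    cop := hcop
    ker := ?_ }⟩
  intro x hx
  have := finrankAlong_smul_eq_zero_of_pullback_eq_zero (heckeAlphaBar Qb N ℓ)
    (heckeAlphaBarIntegral N ℓ) (fundamentalIdentityAlong_alpha N ℓ) hfin
    (normFormulaAlong_alpha N ℓ) (GH.deg_ne_zero_FB N) hx
  rw [natCast_zsmul, hdd] at this
  exact this

/-! ### FLAT-SS -/

variable {p : ℕ} {N : ℕ} [NeZero N] {S : Finset ℕ}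
  {𝒪 : Type} [CommRing 𝒪] [IsDomain 𝒪] [IsDiscreteValuationRing 𝒪]
  [IsAdicComplete (IsLocalRing.maximalIdeal 𝒪) 𝒪]
  {θ : CuspForm.heckeAlgebra N 2 (↑S : Set ℕ) →+* IsLocalRing.ResidueField 𝒪}
  {T : Type} [CommRing T] [IsLocalRing T] [IsNoetherianRing T]
  [IsAdicComplete (IsLocalRing.maximalIdeal T) T] [Algebra 𝒪 T] [IsLocalHom (algebraMap 𝒪 T)]
  [Module.Finite 𝒪 T] [Module.Free 𝒪 T]

/-- FLAT-SS over transfer data and `(P)` at the level `N'`, with the span hypothesis at one place. -/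
theorem isFlatAt_of_sqClosure
    [Finite (IsLocalRing.ResidueField 𝒪)] [CharZero 𝒪]
    (hp : p.Prime) (hp𝒪 : (p : 𝒪) ∈ IsLocalRing.maximalIdeal 𝒪) (hpN : p ∣ N)
    (hNS : ∀ q : ℕ, q.Prime → q ∣ N → q ∈ S)
    (H : CuspForm.HeckeGaloisRepDatum N (↑S : Set ℕ) 𝒪 θ T)
    {N' : ℕ} [NeZero N'] (Pd : PullData N N' p) (hPF : PFiltStmt N' p)
    (A : ValuationSubring Qb) (hA : A.LiesOverPrime p)
    (hsq : sqClosure H.ρ {σ | σ ∈ IA A} = ⊤) :
    H.ρ.IsFlatAt p := by
  classical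
  haveI : Fact p.Prime := ⟨hp⟩
  have hpS : p ∈ S := hNS p hp hpN
  have hCF := coreFlatStmt_of_pFilt hPF A hA
  -- enough characters
  haveI : IsReduced ↥(CuspForm.heckeAlgebra N 2 (↑S : Set ℕ)) :=
    Fermat.Agent.S31lib.PET.isReduced_heckeAlgebra' (fun q hq hqN => Finset.mem_coe.mpr (hNS q hq hqN))
  haveI : Module.Finite ℤ ↥(CuspForm.heckeAlgebra N 2 (↑S : Set ℕ)) :=
    Fermat.Agent.S22.result N 2 (↑S : Set ℕ)
  obtain ⟨κ, hκ, O₁, i1, i2, i3, i4, i5, i6, i7, i8, i9, hinj, ψ, hψ⟩ :=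
    exists_characters_dvr H.π H.adjoin_range_π
  -- the pieces
  have hpieces : ∀ (k : κ) (m : ℕ),
      FlatLevel p H.ρ (RingHom.ker (ψ k) ⊔ Ideal.span {(p : T) ^ m}) :=
    fun k m => hasFlatModel_piece_ss hp hp𝒪 hpS hNS H Pd A hCF hsq (ψ k) m
  have hpT : (p : T) ∈ maximalIdeal T := by
    have h1 : (p : T) = algebraMap 𝒪 T (p : 𝒪) := (map_natCast _ p).symm
    rw [h1]
    exact map_nonunit (algebraMap 𝒪 T) _ hp𝒪
  exact isFlatAt_of_flatLevel (finite_residueField_of_surjective H.residue_surjective)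
    (flatLevel_of_pieces hpT ψ hψ hpieces)

/-- **FLAT-SS**: at a prime `p ∥ N`, a Hecke–Galois representation whose residual representation has no
inertia coinvariants at `p` is flat at `p`. -/
theorem isFlatAt_of_noCoinvariants
    [Finite (IsLocalRing.ResidueField 𝒪)] [CharZero 𝒪]
    (hp : p.Prime) (hp2 : p ≠ 2) (hp𝒪 : (p : 𝒪) ∈ IsLocalRing.maximalIdeal 𝒪)
    (hN : p ∣ N ∧ ¬ p ^ 2 ∣ N) (hNS : ∀ q : ℕ, q.Prime → q ∣ N → q ∈ S)
    (H : CuspForm.HeckeGaloisRepDatum N (↑S : Set ℕ) 𝒪 θ T)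
    (hss : ∀ P : ValuationSubring Qb, P.LiesOverPrime p →
      ∀ f : H.ρ.residual.V →ₗ[ResidueField T] ResidueField T,
        (∀ σ ∈ P.inertiaSubgroupIn ℚ, ∀ x : H.ρ.residual.V, f (H.ρ.residual.ρ σ x) = f x) →
          f = 0) :
    H.ρ.IsFlatAt p := by
  obtain ⟨A, hA⟩ := Fermat.Agent.S13lib.exists_liesOverPrime hp
  have hsq : sqClosure H.ρ {σ | σ ∈ IA A} = ⊤ :=
    sqClosure_eq_top H.ρ _ (span_sub_eq_top H.ρ _ (hss A hA))
  by_cases h3 : p = 3 → 4 ∣ N
  · exact isFlatAt_of_sqClosure hp hp𝒪 hN.1 hNS H (PullData.id N p)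
      (Fermat.Agent.S33lib.N.geomPStmtDirect_holds N p hp hp2 hN.1 hN.2 h3) A hA hsq
  · push Not at h3
    obtain ⟨hp3, -⟩ := h3
    haveI : NeZero (4 : ℕ) := ⟨by norm_num⟩
    haveI : NeZero (N * 4) := ⟨Nat.mul_ne_zero (NeZero.ne N) (by norm_num)⟩
    obtain ⟨Pd⟩ := exists_pullData_mul N 4 hp
    refine isFlatAt_of_sqClosure hp hp𝒪 hN.1 hNS H Pd
      (Fermat.Agent.S33lib.N.geomPStmtDirect_holds (N * 4) p hp hp2 (Dvd.dvd.mul_right hN.1 4) ?_
        (fun _ => Dvd.intro_left N rfl)) A hA hsq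
    intro h
    apply hN.2
    have hcop : Nat.Coprime (p ^ 2) 4 := by
      rw [hp3]
      decide
    exact hcop.dvd_of_dvd_mul_right h

end Fermat.Agent.S59lib.FlatSS

end
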